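import Fermat.Prelude.Def_Algebra_PatchingDatum
import Mathlib.RingTheory.DiscreteValuationRing.Basic
import Mathlib.RingTheory.Regular.ProjectiveDimension
import Mathlib.RingTheory.MvPowerSeries.Equiv
import Mathlib.RingTheory.MvPowerSeries.Inverse
import Mathlib.RingTheory.FiniteLength
import Mathlib.RingTheory.LocalRing.Module
import Mathlib.RingTheory.Regular.Flat

/-!
Patching descent: freeness of the patched module, computed by projective dimension.
-/

set_option autoImplicit false

open MvPowerSeries RingTheory.Sequence IsLocalRing CategoryTheory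

namespace Fermat.Agent.Patching

section Vars

variable {O : Type} [CommRing O] {r : ℕ}

lemma mem_span_X_iff (s : Finset (Fin r)) (f : MvPowerSeries (Fin r) O) :
    f ∈ Ideal.span ((X : Fin r → MvPowerSeries (Fin r) O) '' (s : Set (Fin r))) ↔
      ∀ m : Fin r →₀ ℕ, (∀ j ∈ s, m j = 0) → coeff m f = 0 := by
  classical
  induction s using Finset.induction generalizing f with
  | empty =>
    simp only [Finset.coe_empty, Set.image_empty, Ideal.span_empty, Ideal.mem_bot,
      Finset.notMem_empty, IsEmpty.forall_iff, implies_true, true_implies]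
    exact ⟨fun h m => by simp [h], fun h => ext (by simpa using h)⟩
  | @insert j s hj ih =>
    rw [Finset.coe_insert, Set.image_insert_eq, Ideal.mem_span_insert']
    constructor
    · rintro ⟨a, ha⟩ m hm
      have h1 := (ih _).1 ha m (fun i hi => hm i (Finset.mem_insert_of_mem hi))
      have h2 : coeff m (a * X j) = 0 :=
        X_dvd_iff.1 (dvd_mul_left (X j) a) m (hm j (Finset.mem_insert_self _ _))
      rw [map_add, h2, add_zero] at h1
      exact h1
    · intro h
      let g : MvPowerSeries (Fin r) O := fun m => if m j = 0 then 0 else - coeff m f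
      have hg : (X j : MvPowerSeries (Fin r) O) ∣ g := X_dvd_iff.2 (fun m hm => by
        simp [g, coeff_apply, hm])
      obtain ⟨a, ha⟩ := hg
      refine ⟨a, (ih _).2 fun m hm => ?_⟩
      rw [mul_comm, ← ha, map_add, coeff_apply g]
      by_cases hmj : m j = 0
      · simp only [g, hmj, if_true, add_zero]
        exact h m ((Finset.forall_mem_insert _ _ _).2 ⟨hmj, hm⟩)
      · simp [g, hmj]

lemma ofList_take_X (k : ℕ) :
    Ideal.ofList ((List.ofFn (X : Fin r → MvPowerSeries (Fin r) O)).take k) =
      Ideal.span ((X : Fin r → MvPowerSeries (Fin r) O) ''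
        ((Finset.univ.filter fun j : Fin r => (j : ℕ) < k : Finset (Fin r)) : Set (Fin r))) := by
  unfold Ideal.ofList
  congr 1
  ext x
  simp only [Set.mem_ofPred_eq, Set.mem_image, Finset.coe_filter, Finset.mem_univ, true_and,
    List.mem_take_iff_getElem, List.getElem_ofFn]
  constructor
  · rintro ⟨i, hi, rfl⟩
    simp only [List.length_ofFn, lt_min_iff] at hi
    exact ⟨⟨i, hi.2⟩, hi.1, rfl⟩
  · rintro ⟨j, hj, rfl⟩
    exact ⟨j, by simp [hj], rfl⟩

lemma ofList_X :
    Ideal.ofList (List.ofFn (X : Fin r → MvPowerSeries (Fin r) O)) =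
      Ideal.span (Set.range fun i : Fin r => (X i : MvPowerSeries (Fin r) O)) := by
  unfold Ideal.ofList
  congr 1
  ext x
  simp [Set.mem_range, eq_comm]

lemma mem_ofList_X_iff (f : MvPowerSeries (Fin r) O) :
    f ∈ Ideal.ofList (List.ofFn (X : Fin r → MvPowerSeries (Fin r) O)) ↔
      constantCoeff f = 0 := by
  have h := ofList_take_X (O := O) (r := r) r
  rw [List.take_of_length_le (by simp)] at h
  rw [h, mem_span_X_iff, ← coeff_zero_eq_constantCoeff_apply]
  constructor
  · intro h; exact h 0 (by simp)
  · intro h m hm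
    have : m = 0 := by ext j; exact hm j (by simp)
    rw [this]; exact h

lemma isWeaklyRegular_X [IsDomain O] :
    IsWeaklyRegular (MvPowerSeries (Fin r) O)
      (List.ofFn (X : Fin r → MvPowerSeries (Fin r) O)) := by
  constructor
  intro i hi
  rw [List.getElem_ofFn]
  have hir : i < r := by simpa using hi
  rw [isSMulRegular_quotient_iff_mem_of_smul_mem]
  intro f hf
  rw [smul_eq_mul, Ideal.mul_top, ofList_take_X, mem_span_X_iff] at hf ⊢
  intro m hm
  have h2 := hf (m + Finsupp.single ⟨i, hir⟩ 1) ?_
  · simpa [X, coeff_add_monomial_mul, add_comm m] using h2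
  · intro j hj
    simp only [Finset.mem_filter, Finset.mem_univ, true_and] at hj
    have hne : (⟨i, hir⟩ : Fin r) ≠ j := by
      intro h; subst h; exact (lt_irrefl _) hj
    simp [hne, hm j (by simp [hj])]

/-- The standard system of parameters of `O⟦X₁, …, X_r⟧`. -/
noncomputable def stdParams (ϖ : O) : List (MvPowerSeries (Fin r) O) :=
  List.ofFn (X : Fin r → MvPowerSeries (Fin r) O) ++ [C ϖ]

lemma mem_ofList_stdParams_iff (ϖ : O) (f : MvPowerSeries (Fin r) O) :
    f ∈ Ideal.ofList (stdParams ϖ) ↔ ϖ ∣ constantCoeff f := by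
  rw [stdParams, Ideal.ofList_append, Ideal.ofList_singleton, Submodule.mem_sup]
  constructor
  · rintro ⟨a, ha, b, hb, rfl⟩
    rw [mem_ofList_X_iff] at ha
    obtain ⟨c, rfl⟩ := Ideal.mem_span_singleton'.1 hb
    simp [ha]
  · rintro ⟨c, hc⟩
    refine ⟨f - C ϖ * C c, ?_, C ϖ * C c, Ideal.mem_span_singleton.2 (dvd_mul_right _ _), by ring⟩
    rw [mem_ofList_X_iff]
    simp [hc]

lemma isWeaklyRegular_stdParams [IsDomain O] {ϖ : O} (hϖ : ϖ ≠ 0) :
    IsWeaklyRegular (MvPowerSeries (Fin r) O) (stdParams (r := r) ϖ) := by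
  rw [stdParams, isWeaklyRegular_append_iff]
  refine ⟨isWeaklyRegular_X, ?_⟩
  rw [isWeaklyRegular_singleton_iff, isSMulRegular_quotient_iff_mem_of_smul_mem]
  intro f hf
  rw [smul_eq_mul, Ideal.mul_top, mem_ofList_X_iff] at hf ⊢
  simpa [hϖ] using hf

lemma maximalIdeal_eq_ofList_stdParams [IsDomain O] [IsDiscreteValuationRing O] {ϖ : O}
    (hϖ : Irreducible ϖ) :
    maximalIdeal (MvPowerSeries (Fin r) O) = Ideal.ofList (stdParams (r := r) ϖ) := by
  ext f
  rw [mem_ofList_stdParams_iff, mem_maximalIdeal, mem_nonunits_iff, isUnit_iff_constantCoeff]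
  rw [← mem_nonunits_iff, ← mem_maximalIdeal, hϖ.maximalIdeal_eq, Ideal.mem_span_singleton]

end Vars

section Devissage

variable {A : Type} [CommRing A] [IsLocalRing A] [IsNoetherianRing A]

/-- Modules of finite length have projective dimension at most that of the residue field. -/
lemma hasProjectiveDimensionLT_of_isFiniteLength {n : ℕ}
    (hk : HasProjectiveDimensionLT (ModuleCat.of A (A ⧸ maximalIdeal A)) n)
    {Q : Type} [AddCommGroup Q] [Module A Q] (hQ : IsFiniteLength A Q) :
    HasProjectiveDimensionLT (ModuleCat.of A Q) n := by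
  induction hQ with
  | of_subsingleton =>
    refine @hasProjectiveDimensionLT_of_ge _ _ _ _ 0 n (Nat.zero_le n) ?_
    exact (ModuleCat.isZero_of_subsingleton _).hasProjectiveDimensionLT_zero
  | @of_simple_quotient M _ _ N hs _ ih =>
    let S : ShortComplex (ModuleCat A) := (N.mkQ).shortComplexKer
    have hS : S.ShortExact := LinearMap.shortExact_shortComplexKer N.mkQ_surjective
    refine hS.hasProjectiveDimensionLT_X₂ n ?_ ?_
    · exact @hasProjectiveDimensionLT_of_iso _ _ _ (ModuleCat.of A N) S.X₁
        (LinearEquiv.ofEq _ _ N.ker_mkQ.symm).toModuleIso n ih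
    · obtain ⟨I, hI, ⟨e⟩⟩ := isSimpleModule_iff_quot_maximal.1 hs
      have hIm : I = maximalIdeal A := IsLocalRing.eq_maximalIdeal hI
      subst hIm
      exact @hasProjectiveDimensionLT_of_iso _ _ _ (ModuleCat.of A _) S.X₃
        e.symm.toModuleIso n hk

/-- A finite module with a weakly regular sequence whose quotient has finite length is free,
as soon as the residue field has projective dimension at most the length of the sequence. -/
lemma free_of_isWeaklyRegular_of_isFiniteLength {N : Type} [AddCommGroup N] [Module A N]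
    [Module.Finite A N] [Nontrivial N] (rs : List A) (reg : IsWeaklyRegular N rs)
    (mem : ∀ x ∈ rs, x ∈ maximalIdeal A)
    (hfl : IsFiniteLength A (N ⧸ Ideal.ofList rs • (⊤ : Submodule A N)))
    (hk : projectiveDimension (ModuleCat.of A (A ⧸ maximalIdeal A)) ≤ rs.length) :
    Module.Free A N := by
  have hQ : projectiveDimension (ModuleCat.of A (N ⧸ Ideal.ofList rs • (⊤ : Submodule A N)))
      ≤ rs.length := by
    rw [projectiveDimension_le_iff]
    exact hasProjectiveDimensionLT_of_isFiniteLength
      ((projectiveDimension_le_iff _ _).1 hk) hfl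
  have heq := ModuleCat.projectiveDimension_quotient_eq_add_length_of_isWeaklyRegular
    (ModuleCat.of A N) rs reg mem
  have h0 : projectiveDimension (ModuleCat.of A N) ≤ ((0 : ℕ) : WithBot ℕ∞) := by
    rw [← ENat.WithBot.add_le_add_natCast_right_iff (c := rs.length), Nat.cast_zero, zero_add,
      ← heq]
    exact hQ
  have : Projective (ModuleCat.of A N) :=
    projective_iff_hasProjectiveDimensionLT_one.2 ((projectiveDimension_le_iff _ _).1 h0)
  have : Module.Projective A N := (IsProjective.iff_projective N).2 this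
  exact Module.free_of_flat_of_isLocalRing

end Devissage

section Level

variable {O : Type} [CommRing O] [IsDomain O] [IsDiscreteValuationRing O]
  {r : ℕ} {R : Type} [CommRing R] [Algebra O R]
  {M : Type} [AddCommGroup M] [Module R M] [Nontrivial M]

/-- In a patching level with trivial relation ideal, the patched module is free. -/
theorem free_patched (L : Algebra.PatchingLevel O r R M ⊥) :
    Module.Free (MvPowerSeries (Fin r) O) L.N ∧ Module.Finite (MvPowerSeries (Fin r) O) L.N ∧
      Nontrivial L.N := by
  classical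
  let A := MvPowerSeries (Fin r) O
  obtain ⟨ϖ, hϖ⟩ := IsDiscreteValuationRing.exists_irreducible O
  have hN : Nontrivial L.N := L.π_surjective.nontrivial
  have hfin : Module.Finite A L.N := ⟨Submodule.fg_def.2 ⟨Set.range L.b, Set.finite_range _, by
    rw [eq_top_iff]
    rintro x -
    obtain ⟨c, rfl⟩ := L.b_span x
    exact Submodule.sum_mem _ fun i _ =>
      Submodule.smul_mem _ _ (Submodule.subset_span ⟨i, rfl⟩)⟩⟩
  let e0 : (Fin L.d → A) →+ L.N :=
    { toFun := fun c => ∑ i, L.φ (c i) • L.b i
      map_zero' := by simp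
      map_add' := fun c c' => by simp [add_smul, Finset.sum_add_distrib] }
  have e0bij : Function.Bijective e0 := by
    refine ⟨?_, fun x => ?_⟩
    · rw [injective_iff_map_eq_zero]
      intro c hc
      funext i
      simpa using (L.b_rel c).1 hc i
    · obtain ⟨c, hc⟩ := L.b_span x; exact ⟨c, hc.symm⟩
  let e : (Fin L.d → A) ≃+ L.N := AddEquiv.ofBijective e0 e0bij
  set ys : List A := (stdParams ϖ).map L.φ with hys
  have hlen : ys.length = (stdParams (r := r) ϖ).length := List.length_map _
  have reg : IsWeaklyRegular L.N ys := by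
    refine (e.isWeaklyRegular_congr (as := stdParams (r := r) ϖ) (bs := ys) ?_).1 ?_
    · rw [hys, List.forall₂_map_right_iff, List.forall₂_same]
      intro a _ c
      change e0 (a • c) = L.φ a • e0 c
      simp only [e0, AddMonoidHom.coe_mk, ZeroHom.coe_mk, Pi.smul_apply, smul_eq_mul, map_mul,
        Finset.smul_sum, mul_smul]
    · have h := (isWeaklyRegular_stdParams (r := r) hϖ.ne_zero).isWeaklyRegular_lTensor
        (M₂ := Fin L.d → A)
      exact ((TensorProduct.rid A (Fin L.d → A)).isWeaklyRegular_congr _).1 h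
  have hmap : Ideal.ofList ys = (Ideal.ofList (stdParams (r := r) ϖ)).map L.φ.toRingHom := by
    rw [Ideal.map_ofList]; rfl
  have hR : Nontrivial R := Module.nontrivial R M
  have mem : ∀ y ∈ ys, y ∈ maximalIdeal A := by
    intro y hy
    obtain ⟨x, hx, rfl⟩ := List.mem_map.1 hy
    rw [mem_maximalIdeal, mem_nonunits_iff]
    intro hu
    simp only [stdParams, List.mem_append, List.mem_ofFn, List.mem_singleton] at hx
    rcases hx with ⟨i, rfl⟩ | rfl
    · exact not_isUnit_zero (L.ψ_φ_X i ▸ hu.map L.ψ)
    · rw [show (C ϖ : A) = algebraMap O A ϖ from by simp [A, algebraMap_apply],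
        L.φ.commutes] at hu
      refine hϖ.not_isUnit ?_
      have := hu.map (constantCoeff (σ := Fin r) (R := O))
      simpa [A, algebraMap_apply] using this
  have hfl : IsFiniteLength A (L.N ⧸ Ideal.ofList ys • (⊤ : Submodule A L.N)) := by
    letI : Module O (L.N ⧸ Ideal.ofList ys • (⊤ : Submodule A L.N)) :=
      Module.compHom _ (algebraMap O A)
    have : IsScalarTower O A (L.N ⧸ Ideal.ofList ys • (⊤ : Submodule A L.N)) :=
      IsScalarTower.of_algebraMap_smul fun _ _ => rfl
    let v : Fin L.d → L.N ⧸ Ideal.ofList ys • (⊤ : Submodule A L.N) :=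
      fun i => Submodule.Quotient.mk (L.b i)
    have hkill : ∀ (a : A), a ∈ Ideal.ofList (stdParams (r := r) ϖ) →
        ∀ i, L.φ a • v i = 0 := by
      intro a ha i
      rw [← Submodule.Quotient.mk_smul, Submodule.Quotient.mk_eq_zero]
      refine Submodule.smul_mem_smul ?_ Submodule.mem_top
      rw [hmap]
      exact Ideal.mem_map_of_mem _ ha
    let g : Fin L.d → (O ⧸ maximalIdeal O) →ₗ[O] L.N ⧸ Ideal.ofList ys • (⊤ : Submodule A L.N) :=
      fun i => Submodule.liftQ (maximalIdeal O) (LinearMap.toSpanSingleton O _ (v i)) (by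
        intro o ho
        rw [LinearMap.mem_ker, LinearMap.toSpanSingleton_apply, ← algebraMap_smul A,
          ← L.φ.commutes o]
        refine hkill _ ?_ i
        rw [mem_ofList_stdParams_iff]
        simpa [hϖ.maximalIdeal_eq, Ideal.mem_span_singleton, algebraMap_apply] using ho)
    let G : (Fin L.d → O ⧸ maximalIdeal O) →ₗ[O]
        L.N ⧸ Ideal.ofList ys • (⊤ : Submodule A L.N) := LinearMap.lsum O _ O g
    have hG : Function.Surjective G := by
      intro q
      induction q using Submodule.Quotient.induction_on with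
      | _ x =>
        obtain ⟨c, rfl⟩ := L.b_span x
        refine ⟨fun i => Submodule.Quotient.mk (constantCoeff (c i)), ?_⟩
        simp only [G, LinearMap.lsum_apply, LinearMap.coe_sum, Finset.sum_apply,
          LinearMap.coe_comp, Function.comp_apply, LinearMap.proj_apply]
        rw [← Submodule.mkQ_apply, map_sum]
        refine Finset.sum_congr rfl fun i _ => ?_
        rw [Submodule.mkQ_apply, Submodule.Quotient.mk_smul]
        change constantCoeff (c i) • v i = L.φ (c i) • v i
        rw [← algebraMap_smul A (constantCoeff (c i)) (v i), ← L.φ.commutes, eq_comm,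
          ← sub_eq_zero, ← sub_smul, ← map_sub]
        refine hkill _ ?_ i
        rw [mem_ofList_stdParams_iff]
        simp [algebraMap_apply]
    have : IsSimpleModule O (O ⧸ maximalIdeal O) :=
      isSimpleModule_iff_quot_maximal.2 ⟨_, maximalIdeal.isMaximal O, ⟨LinearEquiv.refl _ _⟩⟩
    have : IsArtinian O (L.N ⧸ Ideal.ofList ys • (⊤ : Submodule A L.N)) :=
      isArtinian_of_surjective _ G hG
    exact isFiniteLength_iff_isNoetherian_isArtinian.2
      ⟨inferInstance, isArtinian_of_tower O inferInstance⟩
  have hk : projectiveDimension (ModuleCat.of A (A ⧸ maximalIdeal A)) ≤ ys.length := by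
    have hmem' : ∀ x ∈ stdParams (r := r) ϖ, x ∈ maximalIdeal A := by
      intro x hx
      rw [maximalIdeal_eq_ofList_stdParams hϖ]; exact Ideal.subset_span hx
    have h := ModuleCat.projectiveDimension_quotient_eq_add_length_of_isWeaklyRegular
      (ModuleCat.of A A) (stdParams ϖ) (isWeaklyRegular_stdParams hϖ.ne_zero) hmem'
    have : Projective (ModuleCat.of A A) := (IsProjective.iff_projective A).1 inferInstance
    rw [ModuleCat.projectiveDimension_eq_zero_of_projective (ModuleCat.of A A), zero_add] at h
    have e1 : (A ⧸ maximalIdeal A) ≃ₗ[A] A ⧸ Ideal.ofList (stdParams (r := r) ϖ) • (⊤ : Submodule A A) :=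
      Submodule.quotEquivOfEq _ _ (by
        rw [smul_eq_mul, Ideal.mul_top, maximalIdeal_eq_ofList_stdParams hϖ])
    rw [projectiveDimension_eq_of_iso e1.toModuleIso, h, hlen]
  exact ⟨free_of_isWeaklyRegular_of_isFiniteLength ys reg mem hfl hk, hfin, hN⟩

/-- Patching descent. -/
theorem free_and_ker_eq (L : Algebra.PatchingLevel O r R M ⊥) :
    Module.Free R M ∧ Module.annihilator R M = ⊥ ∧
      RingHom.ker L.ψ = Ideal.span (Set.range fun i : Fin r => L.φ (X i)) := by
  classical
  obtain ⟨hfree, hfin, hN⟩ := free_patched L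
  set I := Ideal.span (Set.range fun i : Fin r => L.φ (X i)) with hI
  let bs := Module.Free.chooseBasis (MvPowerSeries (Fin r) O) L.N
  have hmem : ∀ x : L.N, L.π x = 0 ↔ ∀ k, bs.repr x k ∈ I := by
    intro x
    rw [L.ker_π, ← hI]
    constructor
    · intro hx
      induction hx using Submodule.smul_induction_on' with
      | smul a ha m _ => intro k; rw [map_smul, Finsupp.smul_apply]; exact I.mul_mem_right _ ha
      | add y _ z _ h1 h2 => intro k; rw [map_add, Finsupp.add_apply]; exact add_mem (h1 k) (h2 k)
    · intro h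
      rw [← bs.sum_repr x]
      exact Submodule.sum_mem _ fun k _ => Submodule.smul_mem_smul (h k) Submodule.mem_top
  have hker : RingHom.ker L.ψ = I := by
    refine le_antisymm (fun f hf => ?_) (Ideal.span_le.2 ?_)
    · obtain ⟨k⟩ := bs.index_nonempty
      have h0 : L.π (f • bs k) = 0 := by
        rw [L.π_smul, (RingHom.mem_ker).1 hf, zero_smul]
      simpa using (hmem _).1 h0 k
    · rintro _ ⟨i, rfl⟩; exact L.ψ_φ_X i
  let v := fun k => L.π (bs k)
  have hli : LinearIndependent R v := by
    rw [Fintype.linearIndependent_iff]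
    intro g hg k
    choose f hf using fun j => L.ψ_surjective (g j)
    have h0 : L.π (∑ j, f j • bs j) = 0 := by
      rw [map_sum, ← hg]
      exact Finset.sum_congr rfl fun j _ => by rw [L.π_smul, hf]
    have h1 := (hmem _).1 h0 k
    rw [Module.Basis.repr_sum_self, ← hker, RingHom.mem_ker, hf] at h1
    exact h1
  have hsp : ⊤ ≤ Submodule.span R (Set.range v) := by
    rintro m -
    obtain ⟨x, rfl⟩ := L.π_surjective m
    rw [← bs.sum_repr x, map_sum]
    refine Submodule.sum_mem _ fun k _ => ?_
    rw [L.π_smul]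
    exact Submodule.smul_mem _ _ (Submodule.subset_span ⟨k, rfl⟩)
  have hf : Module.Free R M := Module.Free.of_basis (Module.Basis.mk hli hsp)
  refine ⟨hf, ?_, hker⟩
  rw [eq_bot_iff]
  intro a ha
  obtain ⟨k⟩ := bs.index_nonempty
  have h2 : a • v k = 0 := Module.mem_annihilator.1 ha _
  have h3 := (Fintype.linearIndependent_iff.1 hli) (Pi.single k a) (by
    simpa [Pi.single_apply, ite_smul] using h2) k
  simpa using h3

end Level

end Fermat.Agent.Patching
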